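import Mathlib

/-!
# S55, layer L (helper478): abstract successive approximation

`approx_exists`: let `d : N →* C` be a homomorphism of commutative groups, `FilN`, `FilC`
filtrations with `d (FilN j) ⊆ FilC j`, `FilN` complete, `FilC` separated, and `Z ≤ C` a subgroup
containing the image of `d`.  If every `c ∈ Z ∩ FilC j` can be corrected by some `d m`,
`m ∈ FilN j`, into `FilC (j + 1)`, then every `c ∈ Z ∩ FilC 0` is of the form `d m`, `m ∈ FilN 0`.
-/

set_option autoImplicit false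

namespace Fermat.Agent.S55.Local.H478

open Finset

section Approx

variable {N C : Type} [CommGroup N] [CommGroup C] (d : N →* C)
  (FilN : ℕ → Subgroup N) (FilC : ℕ → Subgroup C) (Z : Subgroup C)

/-- One approximation step, packaged with choice. -/
noncomputable def approxStep
    (hdZ : ∀ m, d m ∈ Z)
    (hstep : ∀ j, ∀ c ∈ Z, c ∈ FilC j → ∃ m ∈ FilN j, c / d m ∈ FilC (j + 1))
    (c : C) (hcZ : c ∈ Z) :
    (n : ℕ) → {t : N // c / d t ∈ FilC n} → {t : N // c / d t ∈ FilC (n + 1)} :=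
  fun n t =>
    have hZ : c / d t.1 ∈ Z := Z.div_mem hcZ (hdZ _)
    ⟨t.1 * Classical.choose (hstep n (c / d t.1) hZ t.2), by
      have h := (Classical.choose_spec (hstep n (c / d t.1) hZ t.2)).2
      rw [map_mul, ← div_div]
      exact h⟩

lemma approxStep_div_mem
    (hdZ : ∀ m, d m ∈ Z)
    (hstep : ∀ j, ∀ c ∈ Z, c ∈ FilC j → ∃ m ∈ FilN j, c / d m ∈ FilC (j + 1))
    (c : C) (hcZ : c ∈ Z) (n : ℕ) (t : {t : N // c / d t ∈ FilC n}) :
    (approxStep d FilN FilC Z hdZ hstep c hcZ n t).1 / t.1 ∈ FilN n := by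
  have hZ : c / d t.1 ∈ Z := Z.div_mem hcZ (hdZ _)
  have h := (Classical.choose_spec (hstep n (c / d t.1) hZ t.2)).1
  simpa [approxStep] using h

/-- The sequence of partial products. -/
noncomputable def approxSeq
    (hdZ : ∀ m, d m ∈ Z)
    (hstep : ∀ j, ∀ c ∈ Z, c ∈ FilC j → ∃ m ∈ FilN j, c / d m ∈ FilC (j + 1))
    (c : C) (hcZ : c ∈ Z) (hc0 : c ∈ FilC 0) :
    (n : ℕ) → {t : N // c / d t ∈ FilC n}
  | 0 => ⟨1, by simpa using hc0⟩
  | n + 1 => approxStep d FilN FilC Z hdZ hstep c hcZ n (approxSeq hdZ hstep c hcZ hc0 n)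

/-- Abstract successive approximation. -/
theorem approx_exists
    (hd : ∀ j, ∀ m ∈ FilN j, d m ∈ FilC j)
    (hdZ : ∀ m, d m ∈ Z)
    (hcomplete : ∀ u : ℕ → N, (∀ j, u j ∈ FilN j) →
      ∃ s : N, ∀ n, s / ∏ j ∈ range n, u j ∈ FilN n)
    (hsep : ∀ c : C, (∀ j, c ∈ FilC j) → c = 1)
    (hstep : ∀ j, ∀ c ∈ Z, c ∈ FilC j → ∃ m ∈ FilN j, c / d m ∈ FilC (j + 1))
    (c : C) (hcZ : c ∈ Z) (hc0 : c ∈ FilC 0) : ∃ m ∈ FilN 0, d m = c := by
  set t : ℕ → N := fun n => (approxSeq d FilN FilC Z hdZ hstep c hcZ hc0 n).1 with ht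
  have ht0 : t 0 = 1 := rfl
  have htmem : ∀ n, c / d (t n) ∈ FilC n :=
    fun n => (approxSeq d FilN FilC Z hdZ hstep c hcZ hc0 n).2
  set u : ℕ → N := fun n => t (n + 1) / t n with hu
  have humem : ∀ n, u n ∈ FilN n := fun n =>
    approxStep_div_mem d FilN FilC Z hdZ hstep c hcZ n
      (approxSeq d FilN FilC Z hdZ hstep c hcZ hc0 n)
  have hprod : ∀ n, ∏ j ∈ range n, u j = t n := by
    intro n
    induction n with
    | zero => simp [ht0]
    | succ n ih => rw [prod_range_succ, ih, hu]; simp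
  obtain ⟨s, hs⟩ := hcomplete u humem
  refine ⟨s, by simpa using hs 0, ?_⟩
  have hall : ∀ n, c / d s ∈ FilC n := by
    intro n
    have h1 : d (s / t n) ∈ FilC n := hd n _ (by simpa [hprod n] using hs n)
    have h2 := (FilC n).div_mem (htmem n) h1
    have : c / d (t n) / d (s / t n) = c / d s := by
      rw [map_div, div_div_div_cancel_right]
    rwa [this] at h2
  have := hsep _ hall
  exact (div_eq_one.mp this).symm

end Approx

end Fermat.Agent.S55.Local.H478
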