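import Fermat.Agent.S55.Local.Spec
import Fermat.Agent.S55.Local.H478.Approx

/-!
# S55, layer L, piece A1 (helper478): successive approximation for 1-cocycles

`theorem filtH1 : Fermat.Agent.S55.Local.FiltH1Statement`.
-/

set_option autoImplicit false

namespace Fermat.Agent.S55.Local.H478

open Finset groupCohomology

section H1

variable {G M : Type} [Group G] [CommGroup M] [MulDistribMulAction G M]

/-- The multiplicative coboundary map `m ↦ (g ↦ g • m / m)`. -/
def dZero (G M : Type) [Group G] [CommGroup M] [MulDistribMulAction G M] : M →* (G → M) where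
  toFun m := fun g => g • m / m
  map_one' := by funext g; simp
  map_mul' a b := by
    funext g
    simp only [Pi.mul_apply, smul_mul']
    rw [mul_div_mul_comm]

@[simp] lemma dZero_apply (m : M) (g : G) : dZero G M m g = g • m / m := rfl

/-- Functions with values in a subgroup, as a subgroup of the function group. -/
def piFil (X : Type) (H : Subgroup M) : Subgroup (X → M) where
  carrier := {c | ∀ x, c x ∈ H}
  one_mem' := fun _ => H.one_mem
  mul_mem' := fun ha hb x => H.mul_mem (ha x) (hb x)
  inv_mem' := fun ha x => H.inv_mem (ha x)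

@[simp] lemma mem_piFil {X : Type} {H : Subgroup M} {c : X → M} :
    c ∈ piFil X H ↔ ∀ x, c x ∈ H := Iff.rfl

/-- Pointwise completeness implies completeness of the function group. -/
lemma piFil_complete (X : Type) (Fil : ℕ → Subgroup M)
    (hcomplete : ∀ u : ℕ → M, (∀ j, u j ∈ Fil j) →
      ∃ s : M, ∀ n, s / ∏ j ∈ range n, u j ∈ Fil n)
    (u : ℕ → X → M) (hu : ∀ j, u j ∈ piFil X (Fil j)) :
    ∃ s : X → M, ∀ n, s / ∏ j ∈ range n, u j ∈ piFil X (Fil n) := by
  choose s hs using fun x => hcomplete (fun j => u j x) (fun j => hu j x)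
  refine ⟨s, fun n x => ?_⟩
  simpa [Finset.prod_apply] using hs x n

/-- Pointwise separatedness implies separatedness of the function group. -/
lemma piFil_separated (X : Type) (Fil : ℕ → Subgroup M)
    (hsep : ∀ x : M, (∀ j, x ∈ Fil j) → x = 1)
    (c : X → M) (hc : ∀ j, c ∈ piFil X (Fil j)) : c = 1 := by
  funext x
  exact hsep _ fun j => hc j x

/-- The subgroup of multiplicative 1-cocycles. -/
def mulCocycles₁ (G M : Type) [Group G] [CommGroup M] [MulDistribMulAction G M] :
    Subgroup (G → M) where
  carrier := {c | IsMulCocycle₁ c}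
  one_mem' := by intro g h; simp
  mul_mem' := by
    intro a b ha hb g h
    simp only [Pi.mul_apply, ha g h, hb g h, smul_mul']
    exact mul_mul_mul_comm _ _ _ _
  inv_mem' := by
    intro a ha g h
    simp only [Pi.inv_apply, ha g h, smul_inv', mul_inv]

@[simp] lemma mem_mulCocycles₁ {c : G → M} : c ∈ mulCocycles₁ G M ↔ IsMulCocycle₁ c := Iff.rfl

lemma dZero_mem_mulCocycles₁ (m : M) : dZero G M m ∈ mulCocycles₁ G M := by
  intro g h
  simp only [dZero_apply, smul_div', mul_smul]
  rw [div_mul_div_cancel]

end H1

/-- **A1.** Successive approximation for 1-cocycles. -/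
theorem filtH1 : Fermat.Agent.S55.Local.FiltH1Statement := by
  intro G M _ _ _ Fil _hanti hstab hcomplete hsep hgraded c hc hc0
  have key := approx_exists (dZero G M) Fil (fun j => piFil G (Fil j)) (mulCocycles₁ G M)
    (fun j m hm g => by
      simp only [dZero_apply]
      exact (Fil j).div_mem (hstab j g m hm) hm)
    (fun m => dZero_mem_mulCocycles₁ m)
    hcomplete
    (piFil_separated G Fil hsep)
    (fun j c' hc'Z hc'j => by
      obtain ⟨m, hm, h⟩ := hgraded j c' hc'Z hc'j
      exact ⟨m, hm, fun g => by simpa using h g⟩)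
    c hc hc0
  obtain ⟨m, hm, h⟩ := key
  exact ⟨m, hm, fun g => by rw [← h]; rfl⟩

end Fermat.Agent.S55.Local.H478
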