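import Fermat.Agent.S55.Local.Spec
import Fermat.Agent.S55.Local.H478.FiltH1

/-!
# S55, layer L, piece A2 (helper478): successive approximation for 2-cocycles

`theorem filtH2 : Fermat.Agent.S55.Local.FiltH2Statement`.
-/

set_option autoImplicit false

namespace Fermat.Agent.S55.Local.H478

open Finset groupCohomology

section H2

variable {G M : Type} [Group G] [CommGroup M] [MulDistribMulAction G M]

/-- The multiplicative coboundary map `x ↦ ((g, h) ↦ g • x h / x (g * h) * x g)`. -/
def dOne (G M : Type) [Group G] [CommGroup M] [MulDistribMulAction G M] :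
    (G → M) →* (G × G → M) where
  toFun x := fun p => p.1 • x p.2 / x (p.1 * p.2) * x p.1
  map_one' := by funext p; simp
  map_mul' a b := by
    funext p
    simp only [Pi.mul_apply, smul_mul']
    rw [mul_div_mul_comm, mul_mul_mul_comm]

@[simp] lemma dOne_apply (x : G → M) (p : G × G) :
    dOne G M x p = p.1 • x p.2 / x (p.1 * p.2) * x p.1 := rfl

/-- The subgroup of multiplicative 2-cocycles. -/
def mulCocycles₂ (G M : Type) [Group G] [CommGroup M] [MulDistribMulAction G M] :
    Subgroup (G × G → M) where
  carrier := {c | IsMulCocycle₂ c}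
  one_mem' := by intro g h j; simp
  mul_mem' := by
    intro a b ha hb g h j
    simp only [Pi.mul_apply, smul_mul']
    rw [mul_mul_mul_comm, ha g h j, hb g h j, mul_mul_mul_comm]
  inv_mem' := by
    intro a ha g h j
    simp only [Pi.inv_apply, smul_inv']
    rw [← mul_inv, ← mul_inv, ha g h j]

@[simp] lemma mem_mulCocycles₂ {c : G × G → M} :
    c ∈ mulCocycles₂ G M ↔ IsMulCocycle₂ c := Iff.rfl

/-- The commutative-group identity behind `d ∘ d = 1` in degree 2. -/
lemma dOne_aux (A B C D E F : M) :
    (A / B * C) * (D / C * E) = (A / F * D) * (F / B * E) := by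
  have h : ∀ a b c d e f : Additive M, (a - b + c) + (d - c + e) = (a - f + d) + (f - b + e) := by
    intro a b c d e f; abel
  exact h (Additive.ofMul A) (Additive.ofMul B) (Additive.ofMul C) (Additive.ofMul D)
    (Additive.ofMul E) (Additive.ofMul F)

lemma dOne_mem_mulCocycles₂ (x : G → M) : dOne G M x ∈ mulCocycles₂ G M := by
  intro g h j
  simp only [dOne_apply, smul_mul', smul_div', mul_smul]
  rw [mul_assoc g h j]
  exact dOne_aux _ _ _ _ _ _

end H2

/-- **A2.** Successive approximation for 2-cocycles. -/
theorem filtH2 : Fermat.Agent.S55.Local.FiltH2Statement := by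
  intro G M _ _ _ _ Fil _hanti hstab hcomplete hsep hgraded c hc hc0
  have key := approx_exists (dOne G M) (fun j => piFil G (Fil j))
    (fun j => piFil (G × G) (Fil j)) (mulCocycles₂ G M)
    (fun j x hx p => by
      simp only [dOne_apply]
      exact (Fil j).mul_mem ((Fil j).div_mem (hstab j p.1 _ (hx p.2)) (hx _)) (hx _))
    (fun x => dOne_mem_mulCocycles₂ x)
    (piFil_complete G Fil hcomplete)
    (piFil_separated (G × G) Fil hsep)
    (fun j c' hc'Z hc'j => by
      obtain ⟨x, hx, h⟩ := hgraded j c' hc'Z hc'j
      exact ⟨x, hx, fun p => by simpa using h p.1 p.2⟩)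
    c hc hc0
  obtain ⟨x, hx, h⟩ := key
  exact ⟨x, hx, fun g h' => by rw [← h]; rfl⟩

end Fermat.Agent.S55.Local.H478
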