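import Fermat.Agent.S55.Local.Spec
import Fermat.Agent.S55.Local.H478.Approx

/-!
# S55, layer L, piece A3 (helper478): successive approximation for `ker f ⊆ im g`

`theorem filtKerIm : Fermat.Agent.S55.Local.FiltKerImStatement`.
-/

set_option autoImplicit false

namespace Fermat.Agent.S55.Local.H478

/-- **A3.** Successive approximation for `ker f ⊆ im g`. -/
theorem filtKerIm : Fermat.Agent.S55.Local.FiltKerImStatement := by
  intro M _ f g Fil _hanti hg hcomplete hsep hfg hstep x hx hfx
  exact approx_exists g Fil Fil f.ker hg (fun m => MonoidHom.mem_ker.mpr (hfg m)) hcomplete hsep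
    (fun j c hcZ hcj => hstep j c hcj (MonoidHom.mem_ker.mp hcZ)) x (MonoidHom.mem_ker.mpr hfx) hx

end Fermat.Agent.S55.Local.H478
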